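import Mathlib.RingTheory.Regular.ProjectiveDimension
import Mathlib.RingTheory.MvPowerSeries.Inverse
import Mathlib.RingTheory.MvPowerSeries.Equiv
import Mathlib.RingTheory.MvPowerSeries.NoZeroDivisors
import Mathlib.RingTheory.DiscreteValuationRing.Basic
import Mathlib.RingTheory.FiniteLength
import Mathlib.RingTheory.SimpleModule.Basic
import Mathlib.LinearAlgebra.Quotient.Pi

/-!
Finite modules over `O⟦X₁, …, X_r⟧` (`O` a discrete valuation ring) that are free along some
`O`-algebra endomorphism of `O⟦X₁, …, X_r⟧` are free.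
-/

set_option autoImplicit false

open IsLocalRing RingTheory.Sequence CategoryTheory

namespace Fermat.Agent.Patching

section MvPowerSeriesRegular

variable {O : Type} [CommRing O] {σ : Type}

/-- Membership in the ideal generated by a list of variables, through coefficients. -/
theorem mem_ofList_X_iff (L : List σ) (f : MvPowerSeries σ O) :
    f ∈ Ideal.ofList (L.map MvPowerSeries.X) ↔
      ∀ m : σ →₀ ℕ, (∀ j ∈ L, m j = 0) → MvPowerSeries.coeff m f = 0 := by
  classical
  induction L generalizing f with
  | nil =>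
    simp only [List.map_nil, Ideal.ofList_nil, Ideal.mem_bot]
    exact ⟨fun h m _ => by simp [h], fun h => MvPowerSeries.ext fun m => by
      simpa using h m (by simp)⟩
  | cons a L ih =>
    rw [List.map_cons, Ideal.ofList_cons, Submodule.mem_sup]
    constructor
    · rintro ⟨g, hg, h, hh, rfl⟩ m hm
      rw [map_add, (ih h).1 hh m (fun j hj => hm j (List.mem_cons_of_mem _ hj)),
        MvPowerSeries.X_dvd_iff.1 (Ideal.mem_span_singleton.1 hg) m (hm a (List.mem_cons_self)),
        add_zero]
    · intro hf
      set g : MvPowerSeries σ O := fun m => if m a = 0 then 0 else MvPowerSeries.coeff m f with hg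
      have hgc : ∀ m, MvPowerSeries.coeff m g = if m a = 0 then 0 else MvPowerSeries.coeff m f :=
        fun m => rfl
      refine ⟨g, Ideal.mem_span_singleton.2 (MvPowerSeries.X_dvd_iff.2 fun m hm => ?_), f - g,
        (ih _).2 fun m hm => ?_, add_sub_cancel g f⟩
      · rw [hgc, if_pos hm]
      · rw [map_sub, hgc]
        split_ifs with h
        · rw [sub_zero]
          refine hf m fun j hj => ?_
          rcases List.mem_cons.1 hj with rfl | hj
          · exact h
          · exact hm j hj
        · exact sub_self _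

theorem isSMulRegular_quot_of_forall {R : Type} [CommRing R] (I : Ideal R) (x : R)
    (h : ∀ f : R, x * f ∈ I → f ∈ I) :
    IsSMulRegular (R ⧸ (I • ⊤ : Submodule R R)) x := by
  have hI : (I • ⊤ : Submodule R R) = I := by simp
  refine (isSMulRegular_quotient_iff_mem_of_smul_mem _ _).2 fun f hf => ?_
  rw [hI] at hf ⊢
  exact h f hf

theorem isWeaklyRegular_X (L : List σ) (hL : L.Nodup) :
    IsWeaklyRegular (MvPowerSeries σ O) (L.map MvPowerSeries.X : List (MvPowerSeries σ O)) := by
  classical
  refine ⟨fun i hi => ?_⟩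
  have hi' : i < L.length := by simpa using hi
  rw [List.getElem_map, ← List.map_take]
  refine isSMulRegular_quot_of_forall _ _ fun f hf => ?_
  rw [mem_ofList_X_iff] at hf ⊢
  intro m hm
  have hnot : ∀ j ∈ L.take i, j ≠ L[i] := by
    intro j hj he
    obtain ⟨k, hk, hkj⟩ := List.getElem_of_mem hj
    rw [List.getElem_take] at hkj
    have hki : k < i := by
      rw [List.length_take] at hk
      omega
    have := (hL.getElem_inj_iff (hi := by omega) (hj := hi')).1 (hkj.trans he)
    omega
  have := hf (Finsupp.single L[i] 1 + m) fun j hj => by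
    simp [hm j hj, Finsupp.single_eq_of_ne (hnot j hj)]
  rwa [MvPowerSeries.X, MvPowerSeries.coeff_add_monomial_mul, one_mul] at this

theorem mem_ofList_X_all_iff (L : List σ) (hall : ∀ j, j ∈ L) (f : MvPowerSeries σ O) :
    f ∈ Ideal.ofList (L.map MvPowerSeries.X) ↔ MvPowerSeries.constantCoeff f = 0 := by
  rw [mem_ofList_X_iff, ← MvPowerSeries.coeff_zero_eq_constantCoeff_apply]
  exact ⟨fun h => h 0 (by simp), fun h m hm => by
    rwa [show m = 0 from Finsupp.ext fun j => hm j (hall j)]⟩

theorem isWeaklyRegular_X_C [IsDomain O] (L : List σ) (hL : L.Nodup) (hall : ∀ j, j ∈ L)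
    (ϖ : O) (hϖ : ϖ ≠ 0) :
    IsWeaklyRegular (MvPowerSeries σ O)
      (L.map MvPowerSeries.X ++ [MvPowerSeries.C ϖ] : List (MvPowerSeries σ O)) := by
  refine (isWeaklyRegular_append_iff _ _ _).2 ⟨isWeaklyRegular_X L hL, ?_⟩
  rw [isWeaklyRegular_singleton_iff]
  refine isSMulRegular_quot_of_forall _ _ fun f hf => ?_
  rw [mem_ofList_X_all_iff L hall] at hf ⊢
  rw [map_mul, MvPowerSeries.constantCoeff_C, mul_eq_zero] at hf
  exact hf.resolve_left hϖ

end MvPowerSeriesRegular

section ProjectiveDimension

/-- If the maximal ideal is generated by a regular sequence of length `n`, then every module of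
finite length has projective dimension at most `n`. -/
theorem hasProjectiveDimensionLE_of_isFiniteLength {A : Type} [CommRing A] [IsLocalRing A]
    [IsNoetherianRing A] (rs : List A) (reg : IsRegular A rs)
    (hm : Ideal.ofList rs = maximalIdeal A) {M : Type} [AddCommGroup M] [Module A M]
    (hM : IsFiniteLength A M) :
    HasProjectiveDimensionLE (ModuleCat.of A M) rs.length := by
  have hk : HasProjectiveDimensionLE (ModuleCat.of A (A ⧸ maximalIdeal A)) rs.length := by
    rw [← hm, ← projectiveDimension_le_iff]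
    refine le_of_eq ?_
    rw [← ModuleCat.projectiveDimension_quotient_eq_length.{0} rs reg]
    exact projectiveDimension_eq_of_iso
      (Shrink.linearEquiv A (A ⧸ Ideal.ofList rs)).symm.toModuleIso
  induction hM with
  | @of_subsingleton M _ _ _ =>
    have := (ModuleCat.isZero_of_subsingleton (ModuleCat.of A M)).hasProjectiveDimensionLT_zero
    exact hasProjectiveDimensionLT_of_ge _ 0 _ (Nat.zero_le _)
  | @of_simple_quotient M _ _ N hs _ ih =>
    obtain ⟨I, hI, ⟨e⟩⟩ := (isSimpleModule_iff_quot_maximal (R := A) (M := M ⧸ N)).1 hs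
    obtain rfl := eq_maximalIdeal hI
    have h3 : HasProjectiveDimensionLE (ModuleCat.of A (M ⧸ N)) rs.length :=
      hasProjectiveDimensionLT_of_iso e.symm.toModuleIso _
    have hS : (N.mkQ.shortComplexKer).ShortExact :=
      LinearMap.shortExact_shortComplexKer N.mkQ_surjective
    refine hS.hasProjectiveDimensionLT_X₂ _ ?_ h3
    exact hasProjectiveDimensionLT_of_iso
      (LinearEquiv.ofEq _ _ N.ker_mkQ.symm).toModuleIso _

/-- A finite module over a local Noetherian ring whose maximal ideal is generated by a regular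
sequence of length `n` is free as soon as it has a weakly regular sequence of length `n`
in the maximal ideal with quotient of finite length. -/
theorem free_of_isWeaklyRegular {A : Type} [CommRing A] [IsLocalRing A]
    [IsNoetherianRing A] (rs : List A) (reg : IsRegular A rs)
    (hm : Ideal.ofList rs = maximalIdeal A)
    {N : Type} [AddCommGroup N] [Module A N] [Module.Finite A N] [Nontrivial N]
    (ss : List A) (hlen : ss.length = rs.length) (hss : ∀ s ∈ ss, s ∈ maximalIdeal A)
    (hreg : IsWeaklyRegular N ss)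
    (hfl : IsFiniteLength A (N ⧸ (Ideal.ofList ss • ⊤ : Submodule A N))) :
    Module.Free A N := by
  have h1 : projectiveDimension (ModuleCat.of A (N ⧸ (Ideal.ofList ss • ⊤ : Submodule A N))) ≤
      ((ss.length : ℕ) : WithBot ℕ∞) := by
    rw [projectiveDimension_le_iff, hlen]
    exact hasProjectiveDimensionLE_of_isFiniteLength rs reg hm hfl
  have h2 := ModuleCat.projectiveDimension_quotient_eq_add_length_of_isWeaklyRegular
    (ModuleCat.of A N) ss hreg hss
  have h3 : projectiveDimension (ModuleCat.of A N) ≤ ((0 : ℕ) : WithBot ℕ∞) := by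
    rw [← ENat.WithBot.add_le_add_natCast_right_iff (c := ss.length)]
    simpa [← h2] using h1
  rw [projectiveDimension_le_iff, ← projective_iff_hasProjectiveDimensionLE_zero] at h3
  have : Module.Projective A N := (IsProjective.iff_projective _).2 h3
  exact Module.free_of_flat_of_isLocalRing

end ProjectiveDimension

variable {O : Type} [CommRing O] [IsDomain O] [IsDiscreteValuationRing O] {r : ℕ}

theorem free_of_free_along
    (φ : MvPowerSeries (Fin r) O →ₐ[O] MvPowerSeries (Fin r) O)
    {N : Type} [AddCommGroup N] [Module (MvPowerSeries (Fin r) O) N] [Nontrivial N]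
    {d : ℕ} (b : Fin d → N)
    (hspan : ∀ x : N, ∃ c : Fin d → MvPowerSeries (Fin r) O, x = ∑ i, φ (c i) • b i)
    (hrel : ∀ c : Fin d → MvPowerSeries (Fin r) O, ∑ i, φ (c i) • b i = 0 → ∀ i, c i = 0)
    (hφ : ∀ i, φ (MvPowerSeries.X i) ∈ maximalIdeal (MvPowerSeries (Fin r) O)) :
    Module.Free (MvPowerSeries (Fin r) O) N := by
  classical
  let A := MvPowerSeries (Fin r) O
  have : Module.Finite A N := ⟨Submodule.fg_def.2 ⟨Set.range b, Set.finite_range b,
    eq_top_iff.2 fun x _ => by
      obtain ⟨c, rfl⟩ := hspan x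
      exact sum_mem fun i _ => Submodule.smul_mem _ _ (Submodule.subset_span ⟨i, rfl⟩)⟩⟩
  obtain ⟨ϖ, hϖ⟩ := IsDiscreteValuationRing.exists_irreducible O
  have hϖm : maximalIdeal O = Ideal.span {ϖ} := hϖ.maximalIdeal_eq
  let L := List.finRange r
  let ts : List A := L.map MvPowerSeries.X ++ [MvPowerSeries.C ϖ]
  have hC : MvPowerSeries.C ϖ ∈ maximalIdeal A := by
    rw [mem_maximalIdeal, mem_nonunits_iff, MvPowerSeries.isUnit_iff_constantCoeff,
      MvPowerSeries.constantCoeff_C]
    exact hϖ.not_isUnit
  have hts : ∀ t ∈ ts, t ∈ maximalIdeal A := by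
    intro t ht
    simp only [ts, List.mem_append, List.mem_map, List.mem_singleton] at ht
    rcases ht with ⟨i, -, rfl⟩ | rfl
    · rw [mem_maximalIdeal, mem_nonunits_iff, MvPowerSeries.isUnit_iff_constantCoeff,
        MvPowerSeries.constantCoeff_X]
      exact not_isUnit_zero
    · exact hC
  have hwr : IsWeaklyRegular A ts :=
    isWeaklyRegular_X_C L (List.nodup_finRange r) List.mem_finRange ϖ hϖ.ne_zero
  have reg : IsRegular A ts := IsRegular.of_isWeaklyRegular_of_mem_maximalIdeal A hts hwr
  have hm : Ideal.ofList ts = maximalIdeal A := by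
    refine le_antisymm (Ideal.span_le.2 hts) fun f hf => ?_
    rw [mem_maximalIdeal, mem_nonunits_iff, MvPowerSeries.isUnit_iff_constantCoeff,
      ← mem_nonunits_iff, ← mem_maximalIdeal, hϖm, Ideal.mem_span_singleton] at hf
    obtain ⟨a, ha⟩ := hf
    simp only [ts, Ideal.ofList_append, Ideal.ofList_singleton]
    refine Submodule.mem_sup.2 ⟨f - MvPowerSeries.C ϖ * MvPowerSeries.C a, ?_, _,
      Ideal.mem_span_singleton.2 ⟨MvPowerSeries.C a, rfl⟩, sub_add_cancel _ _⟩
    rw [mem_ofList_X_all_iff L List.mem_finRange, map_sub, map_mul, MvPowerSeries.constantCoeff_C,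
      MvPowerSeries.constantCoeff_C, ← ha, sub_self]
  -- transport the regular sequence along `φ`
  let e0 : (Fin d → A) →+ N :=
    { toFun := fun c => ∑ i, φ (c i) • b i
      map_zero' := by simp
      map_add' := fun x y => by simp [add_smul, Finset.sum_add_distrib] }
  have he0 : Function.Bijective e0 := by
    refine ⟨(injective_iff_map_eq_zero e0).2 fun c hc => funext (hrel c hc), fun x => ?_⟩
    obtain ⟨c, hc⟩ := hspan x
    exact ⟨c, hc.symm⟩
  let e : (Fin d → A) ≃+ N := AddEquiv.ofBijective e0 he0
  have hpi : IsWeaklyRegular (Fin d → A) ts :=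
    ((TensorProduct.rid A (Fin d → A)).isWeaklyRegular_congr ts).1
      (hwr.isWeaklyRegular_lTensor (M₂ := Fin d → A))
  have hN : IsWeaklyRegular N (ts.map φ) := by
    refine (e.isWeaklyRegular_congr ?_).1 hpi
    refine List.forall₂_map_right_iff.2 (List.forall₂_same.2 fun t _ c => ?_)
    show ∑ i, φ (t • c i) • b i = φ t • ∑ i, φ (c i) • b i
    simp [Finset.smul_sum, smul_smul]
  have hφC : ∀ a : O, φ (MvPowerSeries.C a) = MvPowerSeries.C a := fun a => φ.commutes a
  have hss : ∀ s ∈ ts.map φ, s ∈ maximalIdeal A := by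
    intro s hs
    obtain ⟨t, ht, rfl⟩ := List.mem_map.1 hs
    simp only [ts, List.mem_append, List.mem_map, List.mem_singleton] at ht
    rcases ht with ⟨i, -, rfl⟩ | rfl
    · exact hφ i
    · rw [hφC]; exact hC
  refine free_of_isWeaklyRegular ts reg hm (ts.map φ) (List.length_map _) hss hN ?_
  -- the quotient has finite length
  set J : Submodule A N := Ideal.ofList (ts.map φ) • ⊤ with hJ
  let _ : Module O (N ⧸ J) := Module.compHom (N ⧸ J) (algebraMap O A)
  have : IsScalarTower O A (N ⧸ J) := IsScalarTower.of_compHom O A (N ⧸ J)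
  have hred : ∀ (f : A) (x : N), J.mkQ (φ f • x) =
      MvPowerSeries.constantCoeff f • J.mkQ x := by
    intro f x
    change J.mkQ (φ f • x) = algebraMap O A (MvPowerSeries.constantCoeff f) • J.mkQ x
    rw [← map_smul, Submodule.mkQ_apply, Submodule.mkQ_apply, Submodule.Quotient.eq, ← sub_smul,
      MvPowerSeries.algebraMap_apply, Algebra.algebraMap_self, RingHom.id_apply, ← hφC, ← map_sub]
    refine Submodule.smul_mem_smul ?_ Submodule.mem_top
    have : f - MvPowerSeries.C (MvPowerSeries.constantCoeff f) ∈ Ideal.ofList ts := by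
      simp only [ts, Ideal.ofList_append]
      refine Submodule.mem_sup_left ((mem_ofList_X_all_iff L List.mem_finRange _).2 ?_)
      simp
    have := Ideal.mem_map_of_mem φ.toRingHom this
    rwa [Ideal.map_ofList] at this
  have hkill : ∀ (a : O), a ∈ maximalIdeal O → ∀ y : N ⧸ J, a • y = 0 := by
    intro a ha y
    obtain ⟨x, rfl⟩ := J.mkQ_surjective y
    obtain ⟨a, rfl⟩ := Ideal.mem_span_singleton.1 (hϖm ▸ ha)
    rw [mul_comm, mul_smul]
    change a • (algebraMap O A ϖ • J.mkQ x) = 0
    rw [← map_smul, Submodule.mkQ_apply, (Submodule.Quotient.mk_eq_zero J).2 ?_, smul_zero]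
    refine Submodule.smul_mem_smul (Ideal.subset_span ?_) Submodule.mem_top
    refine List.mem_map.2 ⟨MvPowerSeries.C ϖ, by simp [ts], ?_⟩
    exact φ.commutes ϖ
  let F : (Fin d → O) →ₗ[O] N ⧸ J := Fintype.linearCombination O fun i => J.mkQ (b i)
  have hFs : Function.Surjective F := by
    intro y
    obtain ⟨x, rfl⟩ := J.mkQ_surjective y
    obtain ⟨c, rfl⟩ := hspan x
    refine ⟨fun i => MvPowerSeries.constantCoeff (c i), ?_⟩
    simp only [F, Fintype.linearCombination_apply, map_sum, hred]
  let P : Submodule O (Fin d → O) := Submodule.pi Set.univ fun _ => maximalIdeal O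
  have hP : P ≤ LinearMap.ker F := fun c hc => by
    simp only [LinearMap.mem_ker, F, Fintype.linearCombination_apply]
    exact Finset.sum_eq_zero fun i _ => hkill _ (hc i trivial) _
  have : IsSimpleModule O (O ⧸ maximalIdeal O) :=
    isSimpleModule_iff_quot_maximal.2 ⟨_, inferInstance, ⟨LinearEquiv.refl _ _⟩⟩
  have : IsArtinian O ((Fin d → O) ⧸ P) := isArtinian_of_linearEquiv
    (Submodule.quotientPi fun _ : Fin d => (maximalIdeal O : Submodule O O)).symm
  have : IsArtinian O (N ⧸ J) := isArtinian_of_surjective _ (P.liftQ F hP) fun y => by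
    obtain ⟨c, rfl⟩ := hFs y
    exact ⟨P.mkQ c, rfl⟩
  exact isFiniteLength_iff_isNoetherian_isArtinian.2 ⟨inferInstance, isArtinian_of_tower O this⟩

end Fermat.Agent.Patching
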